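/-
S58lib / Lat / PointMap  (helper2)  --  the group homomorphism on points induced by a ring
homomorphism of fields carrying one Weierstrass curve to another ("semilinear `Point.map`").

Mathlib's `Point.map` needs an algebra homomorphism over the ring of definition; here the ring
homomorphism is arbitrary (e.g. the Frobenius of a function field, for a curve defined over the
prime field), at the price of carrying the equation `W.map f = W'`.
-/
import Mathlib

set_option autoImplicit false
set_option linter.unusedSectionVars false

noncomputable section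

namespace Fermat.Agent.S58lib.Lat

open WeierstrassCurve WeierstrassCurve.Affine

universe u v w

variable {F : Type u} {K : Type v} {L : Type w} [Field F] [Field K] [Field L]
  [DecidableEq F] [DecidableEq K] [DecidableEq L]

/-- the map on points induced by `f`, with values in the mapped curve -/
def pmapAux (W : Affine F) (f : F →+* K) : W.Point →+ (W.map f).Point where
  toFun P := match P with
    | .zero => 0
    | .some x y h => .some (f x) (f y) ((W.map_nonsingular f.injective x y).mpr h)
  map_zero' := rfl
  map_add' := by
    rintro (_ | ⟨x₁, y₁, h₁⟩) (_ | ⟨x₂, y₂, h₂⟩)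
    any_goals rfl
    by_cases hxy : x₁ = x₂ ∧ y₁ = W.negY x₂ y₂
    · rw [Point.add_of_Y_eq hxy.left hxy.right,
        Point.add_of_Y_eq (congr_arg _ hxy.left) <| by rw [hxy.right, map_negY]]
    · simpa only [Point.add_some hxy, ← map_addX, ← map_addY, ← map_slope] using!
        (Point.add_some fun h ↦ hxy ⟨f.injective h.1, f.injective (W.map_negY f .. ▸ h).2⟩).symm

/-- the group homomorphism on points induced by a ring homomorphism `f` with `W.map f = W'` -/
def pmap {W : Affine F} {W' : Affine K} (f : F →+* K) (h : W.map f = W') : W.Point →+ W'.Point :=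
  h ▸ pmapAux W f

theorem pmap_zero {W : Affine F} {W' : Affine K} (f : F →+* K) (h : W.map f = W') :
    pmap f h (0 : W.Point) = 0 := map_zero _

theorem pmap_some {W : Affine F} {W' : Affine K} (f : F →+* K) (h : W.map f = W') {x y : F}
    (hxy : W.Nonsingular x y) :
    pmap f h (Point.some x y hxy) =
      Point.some (f x) (f y) (h ▸ (W.map_nonsingular f.injective x y).mpr hxy) := by
  subst h
  rfl

theorem pmap_injective {W : Affine F} {W' : Affine K} (f : F →+* K) (h : W.map f = W') :
    Function.Injective (pmap f h) := by
  subst h
  rintro (_ | ⟨x₁, y₁, h₁⟩) (_ | ⟨x₂, y₂, h₂⟩) hP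
  · rfl
  · exact absurd hP (by simp [pmap, pmapAux])
  · exact absurd hP (by simp [pmap, pmapAux])
  · have := Point.some.inj hP
    obtain ⟨rfl, rfl⟩ : x₁ = x₂ ∧ y₁ = y₂ := ⟨f.injective this.1, f.injective this.2⟩
    rfl

/-- functoriality -/
theorem pmap_pmap {W : Affine F} {W' : Affine K} {W'' : Affine L} (f : F →+* K) (g : K →+* L)
    (h : W.map f = W') (h' : W'.map g = W'') (P : W.Point) :
    pmap g h' (pmap f h P) =
      pmap (g.comp f) (by rw [← h', ← h]; exact (WeierstrassCurve.map_map W f g).symm) P := by
  subst h h'
  rcases P with _ | ⟨x, y, hxy⟩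
  · rfl
  · rw [pmap_some, pmap_some, pmap_some]
    rfl

theorem pmap_id {W : Affine F} (h : W.map (RingHom.id F) = W) (P : W.Point) :
    pmap (RingHom.id F) h P = P := by
  rcases P with _ | ⟨x, y, hxy⟩
  · rfl
  · rw [pmap_some]
    rfl

/-- `pmap` does not depend on the proof and respects equality of ring homs -/
theorem pmap_congr {W : Affine F} {W' : Affine K} {f g : F →+* K} (hfg : f = g)
    (h : W.map f = W') (h' : W.map g = W') (P : W.Point) : pmap f h P = pmap g h' P := by
  subst hfg
  rfl

end Fermat.Agent.S58lib.Lat
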