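/-
S58lib / Lat / Model  (helper2)  --  the function field of a Weierstrass curve as a quadratic
extension of `k(x)`, its generic point and the hyperelliptic involution.

`FF W := AdjoinRoot (W.polynomial mapped to k(x)[Y])`, a field by Gauss' lemma; `{1, y}` is a basis
over `k(x)`.
-/
import Mathlib

set_option autoImplicit false
set_option linter.unusedSectionVars false

noncomputable section

namespace Fermat.Agent.S58lib.Lat

open Polynomial WeierstrassCurve WeierstrassCurve.Affine
open scoped Polynomial.Bivariate

universe u

variable {k : Type u} [Field k] (W : Affine k)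

/-- the Weierstrass polynomial, over `k(x)` -/
def polyK : (RatFunc k)[X] := W.polynomial.map (algebraMap k[X] (RatFunc k))

theorem polyK_monic : (polyK W).Monic := monic_polynomial.map _

theorem polyK_irreducible : Irreducible (polyK W) :=
  (Monic.irreducible_iff_irreducible_map_fraction_map (K := RatFunc k) monic_polynomial).mp
    irreducible_polynomial

instance polyK_fact : Fact (Irreducible (polyK W)) := ⟨polyK_irreducible W⟩

theorem polyK_natDegree : (polyK W).natDegree = 2 := by
  rw [polyK, (monic_polynomial (W := W)).natDegree_map, natDegree_polynomial]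

/-- the function field `k(x)[y]/(W)` -/
abbrev FF : Type u := AdjoinRoot (polyK W)

/-- the function `x` -/
def xK : FF W := algebraMap (RatFunc k) (FF W) RatFunc.X

/-- the function `y` -/
def yK : FF W := AdjoinRoot.root (polyK W)

/-- evaluation of the Weierstrass polynomial over `k(x)` along a ring hom -/
theorem eval₂_polyK {L : Type*} [CommRing L] (i : RatFunc k →+* L) (w : L) :
    (polyK W).eval₂ i w =
      w ^ 2 + (i (RatFunc.C W.a₁) * i RatFunc.X + i (RatFunc.C W.a₃)) * w
        - (i RatFunc.X ^ 3 + i (RatFunc.C W.a₂) * i RatFunc.X ^ 2 + i (RatFunc.C W.a₄) * i RatFunc.X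
          + i (RatFunc.C W.a₆)) := by
  rw [polyK, eval₂_map, Affine.polynomial]
  simp only [eval₂_sub, eval₂_add, eval₂_mul, eval₂_pow, eval₂_X, eval₂_C, RingHom.comp_apply,
    map_add, map_mul, map_pow, RatFunc.algebraMap_X, RatFunc.algebraMap_C]

theorem algebraMap_FF_eq (a : k) :
    algebraMap k (FF W) a = algebraMap (RatFunc k) (FF W) (RatFunc.C a) := by
  rw [IsScalarTower.algebraMap_apply k (RatFunc k) (FF W)]
  rfl

/-- the Weierstrass relation between `x` and `y` in the function field -/
theorem relation_generic :
    yK W ^ 2 + (algebraMap k (FF W) W.a₁ * xK W + algebraMap k (FF W) W.a₃) * yK W =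
      xK W ^ 3 + algebraMap k (FF W) W.a₂ * xK W ^ 2 + algebraMap k (FF W) W.a₄ * xK W
        + algebraMap k (FF W) W.a₆ := by
  have h : (polyK W).eval₂ (AdjoinRoot.of (polyK W)) (AdjoinRoot.root (polyK W)) = 0 :=
    AdjoinRoot.eval₂_root (polyK W)
  rw [eval₂_polyK, ← AdjoinRoot.algebraMap_eq] at h
  simp only [algebraMap_FF_eq, xK, yK]
  linear_combination h

theorem equation_generic : (W⁄(FF W)).Equation (xK W) (yK W) := by
  rw [equation_iff]
  simp only [baseChange_a₁, baseChange_a₂, baseChange_a₃, baseChange_a₄, baseChange_a₆]
  linear_combination relation_generic W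

theorem transcendental_xK : Transcendental k (xK W) :=
  (transcendental_algebraMap_iff (algebraMap (RatFunc k) (FF W)).injective).mpr
    RatFunc.transcendental_X

/-- the base change of an elliptic curve is elliptic (instance search does not unfold
`baseChange`) -/
theorem isElliptic_baseChange [W.IsElliptic] (L : Type*) [CommRing L] [Algebra k L] :
    (W⁄L).IsElliptic := by
  show (WeierstrassCurve.map W (algebraMap k L)).IsElliptic
  infer_instance

theorem nonsingular_generic [W.IsElliptic] : (W⁄(FF W)).Nonsingular (xK W) (yK W) := by
  haveI := isElliptic_baseChange W (FF W)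
  exact (equation_iff_nonsingular (W := W⁄(FF W))).mp (equation_generic W)

/-- the generic point `(x, y)` -/
def gen [W.IsElliptic] : (W⁄(FF W)).Point := .some _ _ (nonsingular_generic W)

end Fermat.Agent.S58lib.Lat
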