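/-
S58lib / Lat / Pullback  (helper2)  --  `k`-algebra homomorphisms out of the function field `FF W`
= points with transcendental `x`-coordinate.

For a field `L / k` and `(u, w)` on `W` over `L` with `u` transcendental over `k`:
`pull u w : FF W →ₐ[k] L`, `x ↦ u`, `y ↦ w`; two `k`-algebra homs out of `FF W` agreeing on `x`
and `y` are equal.
-/
import Fermat.Agent.S58lib.Lat.Model

set_option autoImplicit false
set_option linter.unusedSectionVars false

noncomputable section

namespace Fermat.Agent.S58lib.Lat

open Polynomial WeierstrassCurve WeierstrassCurve.Affine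
open scoped Polynomial.Bivariate

universe u v

variable {k : Type u} [Field k] (W : Affine k) {L : Type v} [Field L] [Algebra k L]

/-- evaluation of rational functions at a transcendental element -/
def evalRat (t : L) (ht : Transcendental k t) : RatFunc k →ₐ[k] L :=
  IsFractionRing.liftAlgHom (g := (aeval t : k[X] →ₐ[k] L)) (transcendental_iff_injective.mp ht)

theorem evalRat_algebraMap (t : L) (ht : Transcendental k t) (p : k[X]) :
    evalRat t ht (algebraMap k[X] (RatFunc k) p) = aeval t p := by
  rw [evalRat, IsFractionRing.liftAlgHom_apply, IsFractionRing.lift_algebraMap]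
  rfl

@[simp]
theorem evalRat_X (t : L) (ht : Transcendental k t) : evalRat t ht RatFunc.X = t := by
  rw [← RatFunc.algebraMap_X, evalRat_algebraMap, aeval_X]

@[simp]
theorem evalRat_C (t : L) (ht : Transcendental k t) (a : k) :
    evalRat t ht (RatFunc.C a) = algebraMap k L a := by
  rw [← RatFunc.algebraMap_C, evalRat_algebraMap, aeval_C]

/-- a `k`-algebra hom out of `k(x)` is determined by the image of `x` -/
theorem ratFunc_algHom_ext {f g : RatFunc k →ₐ[k] L} (h : f RatFunc.X = g RatFunc.X) : f = g := by
  have h1 : (f : RatFunc k →+* L).comp (algebraMap k[X] (RatFunc k)) =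
      (g : RatFunc k →+* L).comp (algebraMap k[X] (RatFunc k)) := by
    have : (f.comp (IsScalarTower.toAlgHom k k[X] (RatFunc k))) =
        (g.comp (IsScalarTower.toAlgHom k k[X] (RatFunc k))) := by
      apply Polynomial.algHom_ext
      simpa using h
    exact congrArg (fun φ : k[X] →ₐ[k] L => (φ : k[X] →+* L)) this
  apply AlgHom.coe_ringHom_injective
  exact IsFractionRing.ringHom_ext (A := k[X]) (fun p => RingHom.congr_fun h1 p)

/-- the equation of `W` over `L` in terms of the polynomial over `k(x)` -/
theorem eval₂_polyK_evalRat (t w : L) (ht : Transcendental k t) :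
    (polyK W).eval₂ (evalRat t ht : RatFunc k →+* L) w = 0 ↔ (W⁄L).Equation t w := by
  rw [eval₂_polyK, equation_iff]
  simp only [RingHom.coe_coe, evalRat_X, evalRat_C, baseChange_a₁, baseChange_a₂, baseChange_a₃,
    baseChange_a₄, baseChange_a₆]
  constructor
  · intro h; linear_combination h
  · intro h; linear_combination h

/-- the `k`-algebra homomorphism `FF W → L`, `x ↦ t`, `y ↦ w` attached to a point `(t, w)` of `W`
over `L` with `t` transcendental over `k`. -/
def pull (t w : L) (ht : Transcendental k t) (h : (W⁄L).Equation t w) : FF W →ₐ[k] L :=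
  AdjoinRoot.liftAlgHom (polyK W) (evalRat t ht) w ((eval₂_polyK_evalRat W t w ht).mpr h)

variable {W}

@[simp]
theorem pull_xK (t w : L) (ht : Transcendental k t) (h : (W⁄L).Equation t w) :
    pull W t w ht h (xK W) = t := by
  rw [xK, AdjoinRoot.algebraMap_eq, pull, AdjoinRoot.liftAlgHom_of, evalRat_X]

@[simp]
theorem pull_yK (t w : L) (ht : Transcendental k t) (h : (W⁄L).Equation t w) :
    pull W t w ht h (yK W) = w := by
  rw [yK, pull, AdjoinRoot.liftAlgHom_root]

theorem pull_algebraMap (t w : L) (ht : Transcendental k t) (h : (W⁄L).Equation t w)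
    (r : RatFunc k) : pull W t w ht h (algebraMap (RatFunc k) (FF W) r) = evalRat t ht r := by
  rw [AdjoinRoot.algebraMap_eq, pull, AdjoinRoot.liftAlgHom_of]

/-- a `k`-algebra hom out of `FF W` is determined by the images of `x` and `y` -/
theorem ff_algHom_ext {f g : FF W →ₐ[k] L} (hx : f (xK W) = g (xK W)) (hy : f (yK W) = g (yK W)) :
    f = g := by
  have h1 : f.comp (IsScalarTower.toAlgHom k (RatFunc k) (FF W)) =
      g.comp (IsScalarTower.toAlgHom k (RatFunc k) (FF W)) := by
    apply ratFunc_algHom_ext
    simpa [xK] using hx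
  apply AlgHom.coe_ringHom_injective
  apply AdjoinRoot.ringHom_ext
  · ext r
    have := AlgHom.congr_fun h1 r
    simpa [AdjoinRoot.algebraMap_eq] using this
  · simpa [yK] using hy

/-- every `k`-algebra hom out of `FF W` is a `pull` -/
theorem eq_pull (f : FF W →ₐ[k] L) :
    ∃ (ht : Transcendental k (f (xK W))) (h : (W⁄L).Equation (f (xK W)) (f (yK W))),
      f = pull W (f (xK W)) (f (yK W)) ht h := by
  have ht : Transcendental k (f (xK W)) := by
    have := transcendental_xK W
    rw [Transcendental] at this ⊢
    exact fun h => this ((isAlgebraic_algHom_iff f f.injective).mp h)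
  have h : (W⁄L).Equation (f (xK W)) (f (yK W)) :=
    Equation.baseChange f (equation_generic W)
  exact ⟨ht, h, ff_algHom_ext (by simp) (by simp)⟩

end Fermat.Agent.S58lib.Lat
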