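/-
S58lib / Lat / Sigma  (helper2)  --  the basis `1, y` of `FF W` over `k(x)` and the hyperelliptic
involution `σ : y ↦ -y - a₁x - a₃`, whose fixed field is `k(x)` (all characteristics, `Δ ≠ 0`).
-/
import Fermat.Agent.S58lib.Lat.Model

set_option autoImplicit false
set_option linter.unusedSectionVars false

noncomputable section

namespace Fermat.Agent.S58lib.Lat

open Polynomial WeierstrassCurve WeierstrassCurve.Affine
open scoped Polynomial.Bivariate

universe u

variable {k : Type u} [Field k] (W : Affine k)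

local notation "ι" => algebraMap (RatFunc k) (FF W)

/-- every element of `FF W` is `p + q y` with `p, q ∈ k(x)` -/
theorem exists_rep (z : FF W) : ∃ p q : RatFunc k, z = ι p + ι q * yK W := by
  obtain ⟨g, rfl⟩ := AdjoinRoot.mk_surjective z
  have hdeg : (g %ₘ polyK W).natDegree < 2 := by
    have := natDegree_modByMonic_lt g (polyK_monic W) (by
      intro h
      have := polyK_natDegree W
      rw [h, natDegree_one] at this
      omega)
    rwa [polyK_natDegree] at this
  have hmk : AdjoinRoot.mk (polyK W) g = AdjoinRoot.mk (polyK W) (g %ₘ polyK W) := by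
    rw [AdjoinRoot.mk_eq_mk]
    exact ⟨g /ₘ polyK W, by
      have h := modByMonic_add_div g (polyK W)
      linear_combination -h⟩
  refine ⟨(g %ₘ polyK W).coeff 0, (g %ₘ polyK W).coeff 1, ?_⟩
  rw [hmk]
  conv_lhs => rw [(g %ₘ polyK W).as_sum_range' 2 hdeg]
  simp only [Finset.sum_range_succ, Finset.sum_range_zero, zero_add, map_add,
    monomial_zero_left, AdjoinRoot.mk_C, ← C_mul_X_eq_monomial, map_mul, AdjoinRoot.mk_X,
    AdjoinRoot.algebraMap_eq, yK]

/-- `1, y` are linearly independent over `k(x)` -/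
theorem rep_eq_zero {p q : RatFunc k} (h : ι p + ι q * yK W = 0) : p = 0 ∧ q = 0 := by
  by_contra hne
  have hg : (C p + C q * X : (RatFunc k)[X]) ≠ 0 := by
    intro h0
    apply hne
    have h1 := congrArg (fun f => f.coeff 0) h0
    have h2 := congrArg (fun f => f.coeff 1) h0
    simp at h1 h2
    exact ⟨h1, h2⟩
  have hlt : (C p + C q * X : (RatFunc k)[X]).natDegree < (polyK W).natDegree := by
    rw [polyK_natDegree]
    have : (C p + C q * X : (RatFunc k)[X]).natDegree ≤ 1 := by compute_degree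
    omega
  apply AdjoinRoot.mk_ne_zero_of_natDegree_lt (polyK_monic W) hg hlt
  simpa [AdjoinRoot.algebraMap_eq, yK] using h

theorem rep_unique {p q p' q' : RatFunc k} (h : ι p + ι q * yK W = ι p' + ι q' * yK W) :
    p = p' ∧ q = q' := by
  have : ι (p - p') + ι (q - q') * yK W = 0 := by
    rw [map_sub, map_sub]
    linear_combination h
  obtain ⟨h1, h2⟩ := rep_eq_zero W this
  exact ⟨sub_eq_zero.mp h1, sub_eq_zero.mp h2⟩

/-- the function `a₁ x + a₃` in `k(x)` -/
def cK : RatFunc k := RatFunc.C W.a₁ * RatFunc.X + RatFunc.C W.a₃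

/-- `-y - a₁x - a₃` -/
def negYK : FF W := -yK W - ι (cK W)

theorem iota_cK : ι (cK W) = algebraMap k (FF W) W.a₁ * xK W + algebraMap k (FF W) W.a₃ := by
  rw [cK, map_add, map_mul, algebraMap_FF_eq, algebraMap_FF_eq, xK]

theorem negYK_eq : negYK W = (W⁄(FF W)).negY (xK W) (yK W) := by
  rw [negYK, iota_cK, Affine.negY, baseChange_a₁, baseChange_a₃]
  ring

theorem relation_negYK :
    (polyK W).eval₂ (Algebra.ofId (RatFunc k) (FF W) : RatFunc k →+* FF W) (negYK W) = 0 := by
  rw [eval₂_polyK]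
  have h := relation_generic W
  simp only [algebraMap_FF_eq, xK] at h
  simp only [RingHom.coe_coe, Algebra.ofId_apply, negYK, cK, map_add, map_mul]
  linear_combination h

/-- the hyperelliptic involution as an algebra endomorphism -/
def sigmaHom : FF W →ₐ[RatFunc k] FF W :=
  AdjoinRoot.liftAlgHom (polyK W) (Algebra.ofId (RatFunc k) (FF W)) (negYK W) (relation_negYK W)

@[simp]
theorem sigmaHom_yK : sigmaHom W (yK W) = negYK W := by
  rw [yK, sigmaHom, AdjoinRoot.liftAlgHom_root]

theorem sigmaHom_negYK : sigmaHom W (negYK W) = yK W := by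
  rw [negYK, map_sub, map_neg, sigmaHom_yK, AlgHom.commutes, negYK]
  ring

theorem sigmaHom_comp_self : (sigmaHom W).comp (sigmaHom W) = AlgHom.id _ _ := by
  apply AdjoinRoot.algHom_ext
  rw [AlgHom.comp_apply, AlgHom.id_apply]
  show sigmaHom W (sigmaHom W (yK W)) = yK W
  rw [sigmaHom_yK, sigmaHom_negYK]

/-- the hyperelliptic involution `σ` of `FF W` over `k(x)` -/
def sigma : FF W ≃ₐ[RatFunc k] FF W :=
  AlgEquiv.ofAlgHom (sigmaHom W) (sigmaHom W) (sigmaHom_comp_self W) (sigmaHom_comp_self W)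

@[simp]
theorem sigma_yK : sigma W (yK W) = negYK W := sigmaHom_yK W

@[simp]
theorem sigma_xK : sigma W (xK W) = xK W := (sigma W).commutes _

theorem sigma_sigma (z : FF W) : sigma W (sigma W z) = z :=
  AlgHom.congr_fun (sigmaHom_comp_self W) z

/-- in characteristic two, `a₁ = a₃ = 0` forces `Δ = 0` -/
theorem Δ_eq_zero_of_two (h2 : (2 : k) = 0) (h1 : W.a₁ = 0) (h3 : W.a₃ = 0) : W.Δ = 0 := by
  simp only [WeierstrassCurve.Δ, WeierstrassCurve.b₂, WeierstrassCurve.b₄, WeierstrassCurve.b₆,
    WeierstrassCurve.b₈, h1, h3]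
  linear_combination (-8 * W.a₂ ^ 2 * (4 * W.a₂ * W.a₆ - W.a₄ ^ 2) - 32 * W.a₄ ^ 3
    - 216 * W.a₆ ^ 2 + 144 * W.a₂ * W.a₄ * W.a₆) * h2

theorem cK_ne_zero_of_two [W.IsElliptic] (h2 : (2 : k) = 0) : cK W ≠ 0 := by
  intro h
  have hΔ : W.Δ ≠ 0 := W.isUnit_Δ.ne_zero
  apply hΔ
  have hp : (C W.a₁ * X + C W.a₃ : k[X]) = 0 := by
    apply RatFunc.algebraMap_injective k
    rw [map_zero, map_add, map_mul, RatFunc.algebraMap_C, RatFunc.algebraMap_C,
      RatFunc.algebraMap_X]
    exact h
  have h1 := congrArg (fun f => f.coeff 1) hp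
  have h3 := congrArg (fun f => f.coeff 0) hp
  simp at h1 h3
  exact Δ_eq_zero_of_two W h2 h1 h3

/-- **the fixed field of `σ` is `k(x)`** -/
theorem mem_range_of_sigma_fixed [W.IsElliptic] {z : FF W} (hz : sigma W z = z) :
    ∃ r : RatFunc k, ι r = z := by
  obtain ⟨p, q, rfl⟩ := exists_rep W z
  rw [map_add, map_mul, AlgEquiv.commutes, AlgEquiv.commutes, sigma_yK, negYK] at hz
  have h : ι (p - q * cK W) + ι (-q) * yK W = ι p + ι q * yK W := by
    rw [map_sub, map_mul, map_neg]
    linear_combination hz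
  obtain ⟨h1, h2⟩ := rep_unique W h
  have hq : q = 0 := by
    by_contra hq
    have h22 : (2 : RatFunc k) = 0 := by
      have : (2 : RatFunc k) * q = 0 := by linear_combination -h2
      exact (mul_eq_zero.mp this).resolve_right hq
    have h2k : (2 : k) = 0 := by
      apply RatFunc.C_injective
      rw [map_ofNat, map_zero]
      exact h22
    have hc : cK W = 0 := by
      have : q * cK W = 0 := by linear_combination -h1
      exact (mul_eq_zero.mp this).resolve_left hq
    exact cK_ne_zero_of_two W h2k hc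
  exact ⟨p, by rw [hq, map_zero, zero_mul, add_zero]⟩

end Fermat.Agent.S58lib.Lat
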