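/-
S58lib / Lat / GenPoint  (helper2)  --  the generic point under pullbacks and under `σ`;
constant points.
-/
import Fermat.Agent.S58lib.Lat.Pullback
import Fermat.Agent.S58lib.Lat.Sigma

set_option autoImplicit false
set_option linter.unusedSectionVars false

noncomputable section

namespace Fermat.Agent.S58lib.Lat

open Polynomial WeierstrassCurve WeierstrassCurve.Affine
open scoped Polynomial.Bivariate

universe u v

variable {k : Type u} [Field k] [DecidableEq k] {W : Affine k} [W.IsElliptic]
  {L : Type v} [Field L] [DecidableEq L] [Algebra k L]

/-- on an elliptic curve every solution of the equation is a nonsingular point -/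
theorem nonsingular_of_equation {t w : L} (h : (W⁄L).Equation t w) : (W⁄L).Nonsingular t w := by
  have := isElliptic_baseChange W L
  exact (equation_iff_nonsingular (W := W⁄L)).mp h

/-- **the pullback along `(t, w)` sends the generic point to `(t, w)`** -/
theorem map_pull_gen (t w : L) (ht : Transcendental k t) (h : (W⁄L).Equation t w) :
    Point.map (W' := W) (pull W t w ht h) (gen W) = .some t w (nonsingular_of_equation h) := by
  simp only [gen, Point.map_some, pull_xK, pull_yK]

/-- a `k`-algebra hom out of `FF W` is determined by the image of the generic point -/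
theorem algHom_ext_of_map_gen {f g : FF W →ₐ[k] L}
    (h : Point.map (W' := W) f (gen W) = Point.map (W' := W) g (gen W)) : f = g := by
  simp only [gen, Point.map_some, Point.some.injEq] at h
  exact ff_algHom_ext h.1 h.2

/-- `σ` as a `k`-algebra homomorphism -/
def sigmaK (W : Affine k) : FF W →ₐ[k] FF W := (sigma W).toAlgHom.restrictScalars k

@[simp]
theorem sigmaK_apply (z : FF W) : sigmaK W z = sigma W z := rfl

/-- **`σ` sends the generic point to its negative** -/
theorem map_sigmaK_gen : Point.map (W' := W) (sigmaK W) (gen W) = -gen W := by
  simp only [gen, Point.map_some, sigmaK_apply, sigma_xK, sigma_yK, Point.neg_some, negYK_eq]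

/-- a point `P` of `E(FF W)` with `σ P = -P` has its `x`-coordinate in `k(x)` -/
theorem x_mem_range_of_map_sigmaK {t w : FF W} (h : (W⁄(FF W)).Nonsingular t w)
    (hσ : Point.map (W' := W) (sigmaK W) (.some t w h) = -(.some t w h)) :
    ∃ r : RatFunc k, algebraMap (RatFunc k) (FF W) r = t := by
  simp only [Point.map_some, Point.neg_some, Point.some.injEq, sigmaK_apply] at hσ
  exact mem_range_of_sigma_fixed W hσ.1

end Fermat.Agent.S58lib.Lat
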