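/-
S58lib / Lat / Const  (helper2)  --  constant points: the embedding `E(k) → E(L)` for a field
`L / k`, its compatibility with `Point.map`, and (for `k` algebraically closed) the
characterisation "a point is constant iff its `x`-coordinate is algebraic over `k`".
-/
import Fermat.Agent.S58lib.Lat.GenPoint
import Fermat.Agent.S58lib.Lat.PointMap

set_option autoImplicit false
set_option linter.unusedSectionVars false

noncomputable section

namespace Fermat.Agent.S58lib.Lat

open Polynomial WeierstrassCurve WeierstrassCurve.Affine
open scoped Polynomial.Bivariate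

universe u v w

variable {k : Type u} [Field k] [DecidableEq k] {W : Affine k}
  {L : Type v} [Field L] [DecidableEq L] [Algebra k L]
  {M : Type w} [Field M] [DecidableEq M] [Algebra k M]

/-- Mathlib's `Point.map` along a `k`-algebra hom is the semilinear `pmap` of the underlying ring
hom -/
theorem map_eq_pmap (f : L →ₐ[k] M) (P : (W⁄L).Point) :
    Point.map (W' := W) f P = pmap (f : L →+* M) (W.map_baseChange f) P := by
  rcases P with _ | ⟨x, y, h⟩
  · show Point.map (W' := W) f 0 = pmap (f : L →+* M) (W.map_baseChange f) 0
    rw [map_zero, map_zero]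
  · rw [pmap_some]
    rfl

theorem map_algebraMap_eq_baseChange : W.map (algebraMap k L) = W⁄L := rfl

variable (W L) in
/-- the embedding of the constant points `E(k) → E(L)` -/
def constPt : W.Point →+ (W⁄L).Point := pmap (algebraMap k L) map_algebraMap_eq_baseChange

theorem constPt_some {a b : k} (h : W.Nonsingular a b) :
    constPt W L (.some a b h) =
      .some (algebraMap k L a) (algebraMap k L b)
        ((W.map_nonsingular (algebraMap k L).injective a b).mpr h) :=
  pmap_some _ _ h

theorem constPt_injective : Function.Injective (constPt W L) := pmap_injective _ _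

/-- `k`-algebra homs fix the constant points -/
theorem map_constPt (f : L →ₐ[k] M) (T : W.Point) :
    Point.map (W' := W) f (constPt W L T) = constPt W M T := by
  rw [map_eq_pmap, constPt, pmap_pmap, constPt]
  exact pmap_congr (by ext a; simp) _ _ T

/-- the constant points, as a subgroup of `E(L)` -/
def constSub (W : Affine k) (L : Type v) [Field L] [DecidableEq L] [Algebra k L] :
    AddSubgroup (W⁄L).Point := (constPt W L).range

theorem map_eq_self_of_mem_constSub {P : (W⁄L).Point} (hP : P ∈ constSub W L) (f : L →ₐ[k] L) :
    Point.map (W' := W) f P = P := by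
  obtain ⟨T, rfl⟩ := hP
  exact map_constPt f T

variable [IsAlgClosed k]

/-- an element of `L` algebraic over the algebraically closed field `k` lies in `k` -/
theorem exists_algebraMap_eq_of_isAlgebraic {t : L} (ht : IsAlgebraic k t) :
    ∃ a : k, algebraMap k L a = t := by
  have hint : IsIntegral k t := ht.isIntegral
  have hdeg : (minpoly k t).degree = 1 :=
    IsAlgClosed.degree_eq_one_of_irreducible k (minpoly.irreducible hint)
  exact minpoly.mem_range_of_degree_eq_one k t hdeg

/-- **a point whose `x`-coordinate is algebraic over `k` is constant** -/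
theorem mem_constSub_of_isAlgebraic {t w : L} (h : (W⁄L).Nonsingular t w) (ht : IsAlgebraic k t) :
    (Point.some t w h : (W⁄L).Point) ∈ constSub W L := by
  obtain ⟨a, rfl⟩ := exists_algebraMap_eq_of_isAlgebraic ht
  have heq := (equation_iff _ _).mp h.1
  simp only [baseChange_a₁, baseChange_a₂, baseChange_a₃, baseChange_a₄, baseChange_a₆] at heq
  have hw : IsAlgebraic k w := by
    refine ⟨X ^ 2 + C (W.a₁ * a + W.a₃) * X - C (a ^ 3 + W.a₂ * a ^ 2 + W.a₄ * a + W.a₆), ?_, ?_⟩
    · have key : ∀ c₁ c₀ : k, (X ^ 2 + C c₁ * X - C c₀ : k[X]) ≠ 0 := by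
        intro c₁ c₀ h0
        have := congrArg (fun f => f.coeff 2) h0
        simp [coeff_X_pow, coeff_X, coeff_C] at this
      exact key _ _
    · simp only [map_sub, map_add, map_mul, map_pow, aeval_X, aeval_C]
      linear_combination heq
  obtain ⟨b, rfl⟩ := exists_algebraMap_eq_of_isAlgebraic hw
  have hns : W.Nonsingular a b := (W.map_nonsingular (algebraMap k L).injective a b).mp h
  exact ⟨.some a b hns, constPt_some hns⟩

omit [IsAlgClosed k] in
/-- constant points have constant coordinates -/
theorem exists_eq_algebraMap_of_mem_constSub {t w : L} {h : (W⁄L).Nonsingular t w}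
    (hP : (Point.some t w h : (W⁄L).Point) ∈ constSub W L) : ∃ a : k, algebraMap k L a = t := by
  obtain ⟨T, hT⟩ := hP
  rcases T with _ | ⟨a, b, hab⟩
  · exact absurd hT (by
      show constPt W L 0 ≠ _
      rw [map_zero]
      exact fun h => by cases h)
  · rw [constPt_some] at hT
    exact ⟨a, (Point.some.inj hT).1⟩

/-- a non-constant point is affine with transcendental `x`-coordinate -/
theorem exists_transcendental_of_not_mem_constSub {P : (W⁄L).Point} (hP : P ∉ constSub W L) :
    ∃ (t w : L) (h : (W⁄L).Nonsingular t w), P = .some t w h ∧ Transcendental k t := by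
  rcases P with _ | ⟨t, w, h⟩
  · exact absurd (constSub W L).zero_mem hP
  · exact ⟨t, w, h, rfl, fun ht => hP (mem_constSub_of_isAlgebraic h ht)⟩

omit [IsAlgClosed k] in
/-- the generic point is not constant -/
theorem gen_not_mem_constSub [W.IsElliptic] : gen W ∉ constSub W (FF W) := by
  intro h
  obtain ⟨a, ha⟩ := exists_eq_algebraMap_of_mem_constSub h
  exact transcendental_xK W ⟨X - C a, X_sub_C_ne_zero a, by simp [ha]⟩

end Fermat.Agent.S58lib.Lat
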