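/-
S58lib / Lat / Frob  (helper2)  --  the Frobenius endomorphism on the points of a curve defined
over the prime field.

`k` of characteristic `p`, `W : Affine k` with `W.map (frobenius k p) = W` (e.g. the base change of
a curve over `ZMod p`).  For every field `L / k`: `frobPt L : E(L) →+ E(L)`, `(t, w) ↦ (t^p, w^p)`,
commuting with `Point.map f` for every `k`-algebra hom `f` and restricting to the Frobenius of
`E(k)` on constant points.
-/
import Fermat.Agent.S58lib.Lat.Const

set_option autoImplicit false
set_option linter.unusedSectionVars false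

noncomputable section

namespace Fermat.Agent.S58lib.Lat

open Polynomial WeierstrassCurve WeierstrassCurve.Affine
open scoped Polynomial.Bivariate

universe u v w

variable {k : Type u} [Field k] [DecidableEq k] {W : Affine k}
  (p : ℕ) [Fact p.Prime] [CharP k p]
  {L : Type v} [Field L] [DecidableEq L] [Algebra k L] [CharP L p]
  {M : Type w} [Field M] [DecidableEq M] [Algebra k M] [CharP M p]

/-- Frobenius commutes with `algebraMap` -/
theorem frobenius_comp_algebraMap :
    (frobenius L p).comp (algebraMap k L) = (algebraMap k L).comp (frobenius k p) := by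
  ext a
  simp [frobenius_def]

/-- the base change of a Frobenius-stable curve is Frobenius-stable -/
theorem map_frobenius_baseChange (hfix : W.map (frobenius k p) = W) :
    (W⁄L).map (frobenius L p) = W⁄L := by
  have hfix' : WeierstrassCurve.map W (frobenius k p) = W := hfix
  show WeierstrassCurve.map (WeierstrassCurve.map W (algebraMap k L)) (frobenius L p) =
    WeierstrassCurve.map W (algebraMap k L)
  rw [WeierstrassCurve.map_map, frobenius_comp_algebraMap, ← WeierstrassCurve.map_map, hfix']

variable (L) in
/-- the Frobenius endomorphism of `E(L)` -/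
def frobPt (hfix : W.map (frobenius k p) = W) : (W⁄L).Point →+ (W⁄L).Point :=
  pmap (frobenius L p) (map_frobenius_baseChange p hfix)

/-- the Frobenius endomorphism of `E(k)` -/
def frobK (hfix : W.map (frobenius k p) = W) : W.Point →+ W.Point :=
  pmap (frobenius k p) hfix

variable {p}

theorem frobPt_some (hfix : W.map (frobenius k p) = W) {t w : L} (h : (W⁄L).Nonsingular t w) :
    ∃ h' : (W⁄L).Nonsingular (t ^ p) (w ^ p), frobPt p L hfix (.some t w h) = .some _ _ h' :=
  ⟨_, pmap_some _ _ h⟩

theorem frobK_some (hfix : W.map (frobenius k p) = W) {a b : k} (h : W.Nonsingular a b) :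
    ∃ h' : W.Nonsingular (a ^ p) (b ^ p), frobK p hfix (.some a b h) = .some _ _ h' :=
  ⟨_, pmap_some _ _ h⟩

/-- Frobenius commutes with `Point.map` along `k`-algebra homomorphisms -/
theorem map_frobPt (hfix : W.map (frobenius k p) = W) (f : L →ₐ[k] M) (P : (W⁄L).Point) :
    Point.map (W' := W) f (frobPt p L hfix P) = frobPt p M hfix (Point.map (W' := W) f P) := by
  rw [map_eq_pmap, map_eq_pmap, frobPt, frobPt, pmap_pmap, pmap_pmap]
  exact pmap_congr (by ext a; simp [frobenius_def]) _ _ P

/-- Frobenius on constant points -/
theorem frobPt_constPt (hfix : W.map (frobenius k p) = W) (T : W.Point) :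
    frobPt p L hfix (constPt W L T) = constPt W L (frobK p hfix T) := by
  rw [frobPt, constPt, frobK, pmap_pmap, pmap_pmap]
  exact pmap_congr (frobenius_comp_algebraMap p) _ _ T

end Fermat.Agent.S58lib.Lat
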