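/-
S58lib / Lat / Translate  (helper2)  --  pullback along a non-constant point and the translation
automorphisms `τ_T` (`T ∈ E(k)`) of the function field: `τ_T` sends the generic point `G` to
`G + T`; `T ↦ τ_T` is an injective homomorphism `E(k) → Aut_k (FF W)`.
-/
import Fermat.Agent.S58lib.Lat.Const

set_option autoImplicit false
set_option linter.unusedSectionVars false

noncomputable section

namespace Fermat.Agent.S58lib.Lat

open Polynomial WeierstrassCurve WeierstrassCurve.Affine
open scoped Polynomial.Bivariate

universe u v

variable {k : Type u} [Field k] [DecidableEq k] [IsAlgClosed k] {W : Affine k} [W.IsElliptic]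
  {L : Type v} [Field L] [DecidableEq L] [Algebra k L]

/-- the pullback `FF W → L` along a non-constant point of `E(L)` -/
def pullPt (P : (W⁄L).Point) (hP : P ∉ constSub W L) : FF W →ₐ[k] L :=
  pull W (exists_transcendental_of_not_mem_constSub hP).choose
    (exists_transcendental_of_not_mem_constSub hP).choose_spec.choose
    (exists_transcendental_of_not_mem_constSub hP).choose_spec.choose_spec.choose_spec.2
    (exists_transcendental_of_not_mem_constSub hP).choose_spec.choose_spec.choose.1

/-- **the pullback along `P` sends the generic point to `P`** -/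
theorem map_pullPt_gen (P : (W⁄L).Point) (hP : P ∉ constSub W L) :
    Point.map (W' := W) (pullPt P hP) (gen W) = P := by
  rw [pullPt, map_pull_gen]
  exact (exists_transcendental_of_not_mem_constSub hP).choose_spec.choose_spec.choose_spec.1.symm

theorem eq_pullPt {P : (W⁄L).Point} (hP : P ∉ constSub W L) {f : FF W →ₐ[k] L}
    (hf : Point.map (W' := W) f (gen W) = P) : f = pullPt P hP :=
  algHom_ext_of_map_gen (hf.trans (map_pullPt_gen P hP).symm)

omit [IsAlgClosed k] in
/-- the image of the generic point under a `k`-algebra hom is never constant -/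
theorem map_gen_not_mem_constSub (f : FF W →ₐ[k] L) :
    Point.map (W' := W) f (gen W) ∉ constSub W L := by
  intro h
  rw [gen, Point.map_some] at h
  obtain ⟨a, ha⟩ := exists_eq_algebraMap_of_mem_constSub h
  obtain ⟨ht, -, -⟩ := eq_pull f
  exact ht ⟨X - C a, X_sub_C_ne_zero a, by simp [ha]⟩

/-- the generic point translated by the constant point `T` -/
def transPt (W : Affine k) [W.IsElliptic] (T : W.Point) : (W⁄(FF W)).Point :=
  gen W + constPt W (FF W) T

omit [IsAlgClosed k] in
theorem transPt_not_mem_constSub (T : W.Point) : transPt W T ∉ constSub W (FF W) := by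
  intro h
  apply gen_not_mem_constSub (W := W)
  have : gen W = transPt W T - constPt W (FF W) T := by rw [transPt]; abel
  rw [this]
  exact (constSub W (FF W)).sub_mem h ⟨T, rfl⟩

/-- the translation `τ_T` as an algebra endomorphism -/
def tau (T : W.Point) : FF W →ₐ[k] FF W := pullPt (transPt W T) (transPt_not_mem_constSub T)

/-- `τ_T G = G + T` -/
theorem map_tau_gen (T : W.Point) :
    Point.map (W' := W) (tau T) (gen W) = gen W + constPt W (FF W) T :=
  map_pullPt_gen _ _

theorem tau_comp (S T : W.Point) : (tau S).comp (tau T) = tau (S + T) := by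
  apply algHom_ext_of_map_gen
  rw [← Point.map_map, map_tau_gen, map_add, map_tau_gen, map_constPt, map_tau_gen, map_add]
  abel

theorem tau_zero : tau (0 : W.Point) = AlgHom.id k (FF W) := by
  apply algHom_ext_of_map_gen
  rw [map_tau_gen, map_zero, add_zero]
  rcases gen W with _ | ⟨x, y, h⟩ <;> rfl

/-- the translation automorphism `τ_T` of the function field -/
def tauEquiv (T : W.Point) : FF W ≃ₐ[k] FF W :=
  AlgEquiv.ofAlgHom (tau T) (tau (-T))
    (by rw [tau_comp, add_neg_cancel, tau_zero]) (by rw [tau_comp, neg_add_cancel, tau_zero])

@[simp]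
theorem tauEquiv_apply (T : W.Point) (z : FF W) : tauEquiv T z = tau T z := rfl

theorem tau_injective : Function.Injective (tau (W := W)) := by
  intro S T h
  have h1 := map_tau_gen S
  rw [h, map_tau_gen] at h1
  exact constPt_injective (add_left_cancel h1).symm

end Fermat.Agent.S58lib.Lat
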