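/-
S58lib / Lat / Hsub  (helper2)  --  the subgroup `H = {P ∈ E(FF W) | σP = -P}`: it contains the
generic point, is stable under Frobenius, and all its points have their `x`-coordinate in `k(x)`
(so helper1's exact parallelogram law applies on `H`).
-/
import Fermat.Agent.S58lib.Lat.Frob
import Fermat.Agent.S58lib.Lat.Translate
import Fermat.Agent.S58lib.Par.Law

set_option autoImplicit false
set_option linter.unusedSectionVars false

noncomputable section

namespace Fermat.Agent.S58lib.Lat

open Polynomial WeierstrassCurve WeierstrassCurve.Affine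
open Fermat.Agent.S58lib.Par
open scoped Polynomial.Bivariate

universe u

variable {k : Type u} [Field k] [DecidableEq k] {W : Affine k} [W.IsElliptic]

instance instFaithfulSMulFF (W : Affine k) : FaithfulSMul k[X] (FF W) := by
  rw [faithfulSMul_iff_algebraMap_injective, IsScalarTower.algebraMap_eq k[X] (RatFunc k) (FF W)]
  exact (algebraMap (RatFunc k) (FF W)).injective.comp (RatFunc.algebraMap_injective k)

variable (W) in
/-- the subgroup of points `P` of `E(FF W)` with `σ P = -P` -/
def Hsub : AddSubgroup (W⁄(FF W)).Point :=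
  (AddMonoidHom.id _ + Point.map (W' := W) (sigmaK W)).ker

theorem mem_Hsub {P : (W⁄(FF W)).Point} :
    P ∈ Hsub W ↔ Point.map (W' := W) (sigmaK W) P = -P := by
  rw [Hsub, AddMonoidHom.mem_ker, AddMonoidHom.add_apply, AddMonoidHom.id_apply,
    add_comm, add_eq_zero_iff_eq_neg]

theorem gen_mem_Hsub : gen W ∈ Hsub W := mem_Hsub.mpr map_sigmaK_gen

/-- a rational function, as a quotient of coprime polynomials, inside `FF W` -/
theorem algebraMap_ratFunc_eq_div (r : RatFunc k) :
    algebraMap (RatFunc k) (FF W) r =
      algebraMap k[X] (FF W) r.num / algebraMap k[X] (FF W) r.denom := by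
  rw [IsScalarTower.algebraMap_apply k[X] (RatFunc k) (FF W),
    IsScalarTower.algebraMap_apply k[X] (RatFunc k) (FF W), ← map_div₀, RatFunc.num_div_denom]

/-- points with `x`-coordinate in `k(x)` are `XRat` -/
theorem xRat_of_x_mem_range {t w : FF W} (h : (W⁄(FF W)).Nonsingular t w)
    (ht : ∃ r : RatFunc k, algebraMap (RatFunc k) (FF W) r = t) :
    XRat W (Point.some t w h) := by
  obtain ⟨r, rfl⟩ := ht
  exact (xRat_some_iff h).mpr ⟨r.num, r.denom, r.denom_ne_zero, r.isCoprime_num_denom,
    algebraMap_ratFunc_eq_div r⟩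

/-- **all points of `H` have their `x`-coordinate in `k(x)`** -/
theorem xRat_of_mem_Hsub {P : (W⁄(FF W)).Point} (hP : P ∈ Hsub W) : XRat W P := by
  rcases P with _ | ⟨t, w, h⟩
  · exact xRat_zero
  · exact xRat_of_x_mem_range h (x_mem_range_of_map_sigmaK h (mem_Hsub.mp hP))

/-- the degree of a point of `E(FF W)` with `x`-coordinate `ι r` -/
theorem xdeg_of_x_eq {t w : FF W} (h : (W⁄(FF W)).Nonsingular t w) (r : RatFunc k)
    (ht : algebraMap (RatFunc k) (FF W) r = t) :
    xdeg W (Point.some t w h) = max r.num.natDegree r.denom.natDegree :=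
  xdeg_some h r.denom_ne_zero r.isCoprime_num_denom (ht ▸ algebraMap_ratFunc_eq_div r)

/-- the generic point has degree one -/
theorem xdeg_gen : xdeg W (gen W) = 1 := by
  have := xdeg_of_x_eq (nonsingular_generic W) RatFunc.X rfl
  rw [gen, this]
  simp

section frob

variable (p : ℕ) [Fact p.Prime] [CharP k p]

instance instCharPFF (W : Affine k) : CharP (FF W) p :=
  charP_of_injective_algebraMap (algebraMap k (FF W)).injective p

variable {p}

/-- `H` is stable under Frobenius -/
theorem frobPt_mem_Hsub (hfix : W.map (frobenius k p) = W) {P : (W⁄(FF W)).Point}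
    (hP : P ∈ Hsub W) : frobPt p (FF W) hfix P ∈ Hsub W := by
  rw [mem_Hsub] at hP ⊢
  rw [map_frobPt, hP, map_neg]

end frob

end Fermat.Agent.S58lib.Lat
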