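/-
S58lib / Lat / Deg  (helper2)  --  degrees on `H ⊆ E(FF W)`: Frobenius multiplies `xdeg` by `p`,
composition (pullback along a point) multiplies degrees, points of degree `0` in `H` are constant.
-/
import Fermat.Agent.S58lib.Lat.Hsub
import Fermat.Agent.S58lib.Par.Compose

set_option autoImplicit false
set_option linter.unusedSectionVars false

noncomputable section

namespace Fermat.Agent.S58lib.Lat

open Polynomial WeierstrassCurve WeierstrassCurve.Affine
open Fermat.Agent.S58lib.Par
open scoped Polynomial.Bivariate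

universe u

variable {k : Type u} [Field k] [DecidableEq k] {W : Affine k} [W.IsElliptic]

/-- `algebraMap k[X] (FF W)` is evaluation at `x` -/
theorem algebraMap_poly_FF (A : k[X]) : algebraMap k[X] (FF W) A = aeval (xK W) A := by
  have : (IsScalarTower.toAlgHom k k[X] (FF W)) = aeval (xK W) := by
    apply Polynomial.algHom_ext
    rw [aeval_X, IsScalarTower.coe_toAlgHom', IsScalarTower.algebraMap_apply k[X] (RatFunc k) (FF W),
      RatFunc.algebraMap_X, xK]
  exact AlgHom.congr_fun this A

/-- the image of a rational function under a `k`-algebra endomorphism of `FF W` -/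
theorem algHom_algebraMap_ratFunc (f : FF W →ₐ[k] FF W) (r : RatFunc k) :
    f (algebraMap (RatFunc k) (FF W) r) =
      aeval (f (xK W)) r.num / aeval (f (xK W)) r.denom := by
  rw [algebraMap_ratFunc_eq_div, map_div₀, algebraMap_poly_FF, algebraMap_poly_FF,
    ← aeval_algHom_apply, ← aeval_algHom_apply]

/-- **multiplicativity of the degree under composition**: for a `k`-endomorphism `f` of `FF W`
with `f G` rational, and a point `R` with `x`-coordinate in `k(x)`:
`xdeg (f R) = xdeg R * xdeg (f G)`. -/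
theorem xdeg_map_of_x_mem_range (f : FF W →ₐ[k] FF W)
    (hQ : XRat W (Point.map (W' := W) f (gen W))) {t w : FF W} (h : (W⁄(FF W)).Nonsingular t w)
    (r : RatFunc k) (ht : algebraMap (RatFunc k) (FF W) r = t) :
    XRat W (Point.map (W' := W) f (.some t w h)) ∧
      xdeg W (Point.map (W' := W) f (.some t w h)) =
        xdeg W (Point.some t w h) * xdeg W (Point.map (W' := W) f (gen W)) := by
  obtain ⟨htr, -, -⟩ := eq_pull f
  have hB : aeval (f (xK W)) r.denom ≠ 0 := by
    intro h0
    exact htr ⟨r.denom, r.denom_ne_zero, h0⟩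
  have hx : f t = aeval (f (xK W)) r.num / aeval (f (xK W)) r.denom := by
    rw [← ht, algHom_algebraMap_ratFunc]
  rw [gen, Point.map_some] at hQ ⊢
  rw [Point.map_some]
  have := xdeg_of_x_eq_aeval_div (W := W) r.isCoprime_num_denom _
    ((W.baseChange_nonsingular f.injective t w).mpr h) hQ hB hx
  rw [xdeg_of_x_eq h r ht]
  exact this

/-- the same for points of `H` -/
theorem xdeg_map_of_mem_Hsub (f : FF W →ₐ[k] FF W)
    (hQ : XRat W (Point.map (W' := W) f (gen W))) {R : (W⁄(FF W)).Point} (hR : R ∈ Hsub W) :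
    XRat W (Point.map (W' := W) f R) ∧
      xdeg W (Point.map (W' := W) f R) = xdeg W R * xdeg W (Point.map (W' := W) f (gen W)) := by
  rcases R with _ | ⟨t, w, h⟩
  · have h0 : (Point.zero : (W⁄(FF W)).Point) = 0 := rfl
    rw [h0, map_zero, xdeg_zero, zero_mul]
    exact ⟨xRat_zero, rfl⟩
  · obtain ⟨r, hr⟩ := x_mem_range_of_map_sigmaK h (mem_Hsub.mp hR)
    exact xdeg_map_of_x_mem_range f hQ h r hr

section frob

variable {p : ℕ} [Fact p.Prime] [CharP k p]

/-- **Frobenius multiplies the degree by `p`** -/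
theorem xdeg_frobPt (hfix : W.map (frobenius k p) = W) {P : (W⁄(FF W)).Point} (hP : XRat W P) :
    XRat W (frobPt p (FF W) hfix P) ∧
      xdeg W (frobPt p (FF W) hfix P) = p * xdeg W P := by
  rcases P with _ | ⟨t, w, h⟩
  · have h0 : (Point.zero : (W⁄(FF W)).Point) = 0 := rfl
    rw [h0, map_zero, xdeg_zero, mul_zero]
    exact ⟨xRat_zero, rfl⟩
  · obtain ⟨h', he⟩ := frobPt_some hfix h
    rw [he]
    exact xdeg_of_x_eq_pow h h' hP rfl

end frob

section const

variable [IsAlgClosed k]

/-- a rational point of degree `0` is constant -/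
theorem mem_constSub_of_xdeg_eq_zero {P : (W⁄(FF W)).Point} (hP : XRat W P)
    (h0 : xdeg W P = 0) : P ∈ constSub W (FF W) := by
  rcases (xdeg_eq_zero_iff hP).mp h0 with rfl | ⟨c, y, h, rfl⟩
  · exact (constSub W (FF W)).zero_mem
  · exact mem_constSub_of_isAlgebraic h (isAlgebraic_algebraMap c)

omit [IsAlgClosed k] in
/-- constant points have degree `0` -/
theorem xdeg_eq_zero_of_mem_constSub {P : (W⁄(FF W)).Point} (hP : P ∈ constSub W (FF W)) :
    XRat W P ∧ xdeg W P = 0 := by
  rcases P with _ | ⟨t, w, h⟩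
  · exact ⟨xRat_zero, xdeg_zero⟩
  · obtain ⟨a, ha⟩ := exists_eq_algebraMap_of_mem_constSub hP
    have hr : algebraMap (RatFunc k) (FF W) (RatFunc.C a) = t := by
      rw [← algebraMap_FF_eq, ha]
    refine ⟨xRat_of_x_mem_range h ⟨_, hr⟩, ?_⟩
    rw [xdeg_of_x_eq h _ hr]
    simp

end const

end Fermat.Agent.S58lib.Lat
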