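/-
S58lib / Lat / Relation  (helper2)  --  **the Frobenius relation** `φ² - aφ + p = 0` on `E(k)`.

`k` algebraically closed of characteristic `p`, `W` elliptic over `k`, Frobenius-stable.  With
`a := xdeg (G + ΦG) - 1 - p` (`G` the generic point, `Φ` the Frobenius of `E(FF W)`):
* `xdeg (r G + s ΦG) = r² + a r s + p s²`;
* `(Φ² - aΦ + p) G` is a constant point;
* `∀ T ∈ E(k), φ(φ T) - a φ T + p T = 0`  (translation trick: no specialisation needed).
-/
import Fermat.Agent.S58lib.Lat.Deg
import Fermat.Agent.S58lib.Lat.QuadRel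

set_option autoImplicit false
set_option linter.unusedSectionVars false

noncomputable section

namespace Fermat.Agent.S58lib.Lat

open Polynomial WeierstrassCurve WeierstrassCurve.Affine
open Fermat.Agent.S58lib.Par
open scoped Polynomial.Bivariate

universe u

variable {k : Type u} [Field k] [DecidableEq k] {W : Affine k} [W.IsElliptic]
  {p : ℕ} [Fact p.Prime] [CharP k p]

/-- Frobenius restricted to `H` -/
def frobH (hfix : W.map (frobenius k p) = W) : Hsub W →+ Hsub W :=
  ((frobPt p (FF W) hfix).comp (Hsub W).subtype).codRestrict (Hsub W)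
    (fun P => frobPt_mem_Hsub hfix P.2)

@[simp]
theorem coe_frobH (hfix : W.map (frobenius k p) = W) (P : Hsub W) :
    ((frobH hfix P : Hsub W) : (W⁄(FF W)).Point) = frobPt p (FF W) hfix P := rfl

/-- the degree function on `H` -/
def degH (P : Hsub W) : ℤ := (xdeg W (P : (W⁄(FF W)).Point) : ℤ)

theorem degH_nonneg (P : Hsub W) : 0 ≤ degH P := Int.natCast_nonneg _

/-- the parallelogram law on `H` -/
theorem degH_par (P Q : Hsub W) :
    degH (P + Q) + degH (P - Q) = 2 * degH P + 2 * degH Q := by
  have := xdeg_add_add_xdeg_sub (xRat_of_mem_Hsub P.2) (xRat_of_mem_Hsub Q.2)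
    (xRat_of_mem_Hsub (P + Q).2) (xRat_of_mem_Hsub (P - Q).2)
  simp only [degH, AddSubgroup.coe_add, AddSubgroup.coe_sub]
  exact_mod_cast this

theorem degH_frobH (hfix : W.map (frobenius k p) = W) (P : Hsub W) :
    degH (frobH hfix P) = (p : ℤ) * degH P := by
  have := (xdeg_frobPt hfix (xRat_of_mem_Hsub P.2)).2
  simp only [degH, coe_frobH]
  exact_mod_cast this

/-- the generic point, in `H` -/
def genH (W : Affine k) [W.IsElliptic] : Hsub W := ⟨gen W, gen_mem_Hsub⟩

theorem degH_genH : degH (genH W) = 1 := by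
  simp only [degH, genH, xdeg_gen]
  rfl

variable [IsAlgClosed k]

/-- the multiplicativity instance `deg ((1+Φ)²) = deg (1+Φ)²` -/
theorem degH_mul_instance (hfix : W.map (frobenius k p) = W) :
    degH (genH W + (2 : ℤ) • frobH hfix (genH W) + frobH hfix (frobH hfix (genH W))) =
      degH (genH W + frobH hfix (genH W)) ^ 2 := by
  set Q : Hsub W := genH W + frobH hfix (genH W) with hQdef
  have hsum : genH W + (2 : ℤ) • frobH hfix (genH W) + frobH hfix (frobH hfix (genH W)) =
      Q + frobH hfix Q := by
    rw [hQdef, map_add]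
    abel
  rw [hsum]
  by_cases hQ : (Q : (W⁄(FF W)).Point) ∈ constSub W (FF W)
  · -- everything is constant
    have h1 : degH Q = 0 := by
      have := (xdeg_eq_zero_of_mem_constSub hQ).2
      simp only [degH, this]
      rfl
    have h2 : ((Q + frobH hfix Q : Hsub W) : (W⁄(FF W)).Point) ∈ constSub W (FF W) := by
      rw [AddSubgroup.coe_add, coe_frobH]
      refine (constSub W (FF W)).add_mem hQ ?_
      obtain ⟨T, hT⟩ := hQ
      rw [← hT, frobPt_constPt]
      exact ⟨_, rfl⟩
    have h3 : degH (Q + frobH hfix Q) = 0 := by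
      have := (xdeg_eq_zero_of_mem_constSub h2).2
      simp only [degH, this]
      rfl
    rw [h1, h3]
    ring
  · -- `Q + ΦQ` is the image of `G + ΦG = Q` under the pullback along `Q`
    set f := pullPt (Q : (W⁄(FF W)).Point) hQ with hf
    have hfG : Point.map (W' := W) f (gen W) = Q := map_pullPt_gen _ hQ
    have e : ((Q : Hsub W) : (W⁄(FF W)).Point) = gen W + frobPt p (FF W) hfix (gen W) := by
      rw [hQdef]; rfl
    have hmap : Point.map (W' := W) f (Q : (W⁄(FF W)).Point) =
        ((Q + frobH hfix Q : Hsub W) : (W⁄(FF W)).Point) := by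
      calc Point.map (W' := W) f (Q : (W⁄(FF W)).Point)
          = Point.map (W' := W) f (gen W + frobPt p (FF W) hfix (gen W)) := by rw [e]
        _ = Point.map (W' := W) f (gen W)
              + frobPt p (FF W) hfix (Point.map (W' := W) f (gen W)) := by
            rw [map_add, map_frobPt]
        _ = ((Q + frobH hfix Q : Hsub W) : (W⁄(FF W)).Point) := by
            rw [hfG]
            rfl
    have hXQ : XRat W (Point.map (W' := W) f (gen W)) := by
      rw [hfG]; exact xRat_of_mem_Hsub Q.2
    have := (xdeg_map_of_mem_Hsub f hXQ Q.2).2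
    rw [hmap, hfG] at this
    simp only [degH]
    rw [this]
    push_cast
    ring

/-- **the trace of Frobenius**, defined through degrees: `a = deg (1 + Φ) - 1 - p` -/
def frobTrace (hfix : W.map (frobenius k p) = W) : ℤ :=
  degH (genH W + frobH hfix (genH W)) - 1 - p

/-- the binary quadratic form: `xdeg (r G + s ΦG) = r² + a r s + p s²` -/
theorem degH_zsmul_add_zsmul (hfix : W.map (frobenius k p) = W) (r s : ℤ) :
    degH (r • genH W + s • frobH hfix (genH W)) =
      r ^ 2 + frobTrace hfix * r * s + (p : ℤ) * s ^ 2 :=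
  d_zsmul_add_zsmul degH_par (degH_frobH hfix) degH_genH r s

/-- `(Φ² - aΦ + p) G` has degree zero -/
theorem degH_relation (hfix : W.map (frobenius k p) = W) :
    degH (frobH hfix (frobH hfix (genH W)) - frobTrace hfix • frobH hfix (genH W)
      + (p : ℤ) • genH W) = 0 :=
  d_relation degH_par (degH_frobH hfix) degH_genH (degH_mul_instance hfix)

/-- `(Φ² - aΦ + p) G` is a constant point -/
theorem relation_mem_constSub (hfix : W.map (frobenius k p) = W) :
    frobPt p (FF W) hfix (frobPt p (FF W) hfix (gen W)) - frobTrace hfix • frobPt p (FF W) hfix (gen W)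
      + (p : ℤ) • gen W ∈ constSub W (FF W) := by
  have h0 := degH_relation hfix
  set C : Hsub W := frobH hfix (frobH hfix (genH W)) - frobTrace hfix • frobH hfix (genH W)
      + (p : ℤ) • genH W with hC
  have hmem := mem_constSub_of_xdeg_eq_zero (xRat_of_mem_Hsub C.2) (by
    have : ((xdeg W (C : (W⁄(FF W)).Point) : ℕ) : ℤ) = 0 := h0
    exact_mod_cast this)
  have e : (C : (W⁄(FF W)).Point) =
      frobPt p (FF W) hfix (frobPt p (FF W) hfix (gen W)) - frobTrace hfix • frobPt p (FF W) hfix (gen W)
      + (p : ℤ) • gen W := by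
    rw [hC]
    simp only [AddSubgroup.coe_add, AddSubgroup.coe_sub, AddSubgroup.coe_zsmul, coe_frobH]
    rfl
  rwa [e] at hmem

/-- **the Frobenius relation on `E(k)`**: `φ(φ T) - a φ T + p T = 0` for every `T ∈ E(k)`. -/
theorem frobK_relation (hfix : W.map (frobenius k p) = W) (T : W.Point) :
    frobK p hfix (frobK p hfix T) - frobTrace hfix • frobK p hfix T + (p : ℤ) • T = 0 := by
  set Φ := frobPt p (FF W) hfix with hΦ
  set a := frobTrace hfix with ha
  have hC := relation_mem_constSub hfix
  rw [← hΦ, ← ha] at hC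
  -- apply the translation `τ_T`
  have h1 := map_eq_self_of_mem_constSub hC (tau T)
  rw [map_add, map_sub, map_zsmul, map_zsmul, hΦ, map_frobPt, map_frobPt, ← hΦ, map_tau_gen,
    map_add, map_add, smul_add, smul_add] at h1
  have h2 : Φ (Φ (constPt W (FF W) T)) - a • Φ (constPt W (FF W) T)
      + (p : ℤ) • constPt W (FF W) T = 0 := by
    have e : Φ (Φ (gen W)) + Φ (Φ (constPt W (FF W) T)) -
        (a • Φ (gen W) + a • Φ (constPt W (FF W) T)) +
        ((p : ℤ) • gen W + (p : ℤ) • constPt W (FF W) T) =
        (Φ (Φ (gen W)) - a • Φ (gen W) + (p : ℤ) • gen W) +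
        (Φ (Φ (constPt W (FF W) T)) - a • Φ (constPt W (FF W) T)
          + (p : ℤ) • constPt W (FF W) T) := by abel
    rw [e] at h1
    exact add_left_cancel (h1.trans (add_zero _).symm)
  rw [hΦ, frobPt_constPt, frobPt_constPt] at h2
  have h3 : constPt W (FF W)
      (frobK p hfix (frobK p hfix T) - a • frobK p hfix T + (p : ℤ) • T) = 0 := by
    rw [map_add, map_sub, map_zsmul, map_zsmul]
    exact h2
  exact constPt_injective (h3.trans (map_zero _).symm)

end Fermat.Agent.S58lib.Lat
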