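/-
S58lib / Lat / Kernel  (helper2)  --  **the kernel bound (K)**: a finite subgroup `X ≤ E(k)` on
which Frobenius acts as the integer `c` has at most `c² - a c + p` elements.

Proof by root counting: with `P₀ = (Φ - c) G = (ι f, ·)`, `f = A / B ∈ k(x)` of degree
`d = c² - a c + p > 0`, every translation `τ_T` (`T ∈ X`) fixes `P₀`, hence `u_T := τ_T x = x(G+T)`
is a root of `A(Z) - f B(Z) ∈ (FF W)[Z]`, a nonzero polynomial of degree `≤ d`; the `u_T` are
pairwise distinct.
-/
import Fermat.Agent.S58lib.Lat.Relation

set_option autoImplicit false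
set_option linter.unusedSectionVars false

noncomputable section

namespace Fermat.Agent.S58lib.Lat

open Polynomial WeierstrassCurve WeierstrassCurve.Affine
open Fermat.Agent.S58lib.Par
open scoped Polynomial.Bivariate

universe u

variable {k : Type u} [Field k] [DecidableEq k] [IsAlgClosed k] {W : Affine k} [W.IsElliptic]
  {p : ℕ} [Fact p.Prime] [CharP k p]

/-- positivity of the norm form -/
theorem norm_form_pos (hfix : W.map (frobenius k p) = W) (c : ℤ) :
    0 < c ^ 2 - frobTrace hfix * c + (p : ℤ) := by
  apply form_pos_of_nonneg (a := frobTrace hfix) (ℓ := (p : ℤ))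
  · intro r s
    rw [← degH_zsmul_add_zsmul hfix r s]
    exact degH_nonneg _
  · exact sq_ne_four_mul_prime (Fact.out : p.Prime) _

/-- the `x`-coordinates of `G + T` and `G + S` differ for `T ≠ S` -/
theorem tau_xK_injective (hfix : W.map (frobenius k p) = W) {S T : W.Point}
    (h : tau T (xK W) = tau S (xK W)) : T = S := by
  have hns := nonsingular_generic W
  have hnT : (W⁄(FF W)).Nonsingular (tau T (xK W)) (tau T (yK W)) :=
    (W.baseChange_nonsingular (tau T).injective _ _).mpr hns
  have hnS : (W⁄(FF W)).Nonsingular (tau S (xK W)) (tau S (yK W)) :=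
    (W.baseChange_nonsingular (tau S).injective _ _).mpr hns
  rcases Y_eq_of_X_eq hnT.1 hnS.1 h with hy | hy
  · exact tau_injective (ff_algHom_ext h hy)
  · -- `G + T = -(G + S)`: impossible, `2G` would be constant
    exfalso
    have hneg : (Point.some _ _ hnT : (W⁄(FF W)).Point) = -Point.some _ _ hnS := by
      rw [Point.neg_some]
      congr 1
    have hT' : Point.map (W' := W) (tau T) (gen W) = Point.some _ _ hnT := by
      rw [gen, Point.map_some]
    have hS' : Point.map (W' := W) (tau S) (gen W) = Point.some _ _ hnS := by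
      rw [gen, Point.map_some]
    have e : gen W + constPt W (FF W) T = -(gen W + constPt W (FF W) S) := by
      rw [← map_tau_gen T, ← map_tau_gen S, hT', hS']; exact hneg
    have h2 : (2 : ℤ) • gen W = constPt W (FF W) (-T - S) := by
      rw [map_sub, map_neg]
      have : (2 : ℤ) • gen W = gen W + gen W := two_zsmul _
      rw [this]
      have e' := e
      rw [neg_add] at e'
      calc gen W + gen W = (gen W + constPt W (FF W) T) + gen W - constPt W (FF W) T := by abel
        _ = (-gen W + -constPt W (FF W) S) + gen W - constPt W (FF W) T := by rw [e']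
        _ = -constPt W (FF W) T - constPt W (FF W) S := by abel
    have hconst : (2 : ℤ) • gen W ∈ constSub W (FF W) := h2 ▸ ⟨_, rfl⟩
    have hdeg := degH_zsmul_add_zsmul hfix 2 0
    have h0 := (xdeg_eq_zero_of_mem_constSub hconst).2
    have e2 : ((2 : ℤ) • genH W + (0 : ℤ) • frobH hfix (genH W) : Hsub W) = (2 : ℤ) • genH W := by
      rw [zero_smul, add_zero]
    rw [e2] at hdeg
    have e3 : degH ((2 : ℤ) • genH W) = ((xdeg W ((2 : ℤ) • gen W) : ℕ) : ℤ) := rfl
    rw [e3, h0] at hdeg
    norm_num at hdeg

/-- **the kernel bound (K)** -/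
theorem card_le_of_frobK_eq_zsmul (hfix : W.map (frobenius k p) = W) (c : ℤ)
    (X : AddSubgroup W.Point) [Finite X] (hX : ∀ T ∈ X, frobK p hfix T = c • T) :
    (Nat.card X : ℤ) ≤ c ^ 2 - frobTrace hfix * c + (p : ℤ) := by
  set Φ := frobPt p (FF W) hfix with hΦ
  -- the point `P₀ = (Φ - c) G` and its degree
  set P₀H : Hsub W := (-c) • genH W + (1 : ℤ) • frobH hfix (genH W) with hP₀H
  have hdeg : degH P₀H = c ^ 2 - frobTrace hfix * c + (p : ℤ) := by
    rw [hP₀H, degH_zsmul_add_zsmul]; ring
  have hpos := norm_form_pos hfix c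
  set P₀ : (W⁄(FF W)).Point := (P₀H : (W⁄(FF W)).Point) with hP₀
  have hP₀eq : P₀ = Φ (gen W) - c • gen W := by
    rw [hP₀, hP₀H]
    simp only [AddSubgroup.coe_add, coe_frobH, one_smul, neg_smul]
    show -(c • gen W) + Φ (gen W) = _
    abel
  have hnc : P₀ ∉ constSub W (FF W) := by
    intro hc
    have h0 := (xdeg_eq_zero_of_mem_constSub hc).2
    have : degH P₀H = 0 := by simp only [degH]; rw [← hP₀, h0]; rfl
    rw [this] at hdeg
    omega
  -- coordinates of `P₀`
  obtain ⟨t₀, w₀, h₀, hP₀some, -⟩ := exists_transcendental_of_not_mem_constSub hnc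
  have hH : (Point.some t₀ w₀ h₀ : (W⁄(FF W)).Point) ∈ Hsub W := hP₀some ▸ P₀H.2
  obtain ⟨f, hf⟩ := x_mem_range_of_map_sigmaK h₀ (mem_Hsub.mp hH)
  have hxdeg : xdeg W P₀ = max f.num.natDegree f.denom.natDegree := by
    rw [hP₀some]; exact xdeg_of_x_eq h₀ f hf
  -- the polynomial `A(Z) - f B(Z)`
  set ιf : FF W := algebraMap (RatFunc k) (FF W) f with hιf
  set Pz : (FF W)[X] := f.num.map (algebraMap k (FF W)) - C ιf * f.denom.map (algebraMap k (FF W))
    with hPz
  have hPz0 : Pz ≠ 0 := by
    intro h0
    apply hnc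
    rw [hP₀some]
    apply mem_constSub_of_isAlgebraic h₀
    -- a nonzero coefficient of the denominator
    obtain ⟨i, hi⟩ : ∃ i, f.denom.coeff i ≠ 0 := by
      by_contra hcon
      push Not at hcon
      exact f.denom_ne_zero (Polynomial.ext (by simpa using hcon))
    have hco := congrArg (fun q => q.coeff i) h0
    simp only [hPz, coeff_sub, coeff_map, coeff_C_mul, coeff_zero] at hco
    have hbi : algebraMap k (FF W) (f.denom.coeff i) ≠ 0 :=
      (map_ne_zero_iff _ (algebraMap k (FF W)).injective).mpr hi
    have hval : ιf = algebraMap k (FF W) (f.num.coeff i / f.denom.coeff i) := by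
      rw [map_div₀, eq_div_iff hbi]
      linear_combination -hco
    rw [← hf, hval]
    exact isAlgebraic_algebraMap _
  have hPzdeg : Pz.natDegree ≤ xdeg W P₀ := by
    rw [hxdeg, hPz]
    refine (natDegree_sub_le _ _).trans (max_le_max natDegree_map_le ?_)
    exact (natDegree_C_mul_le _ _).trans natDegree_map_le
  -- every `τ_T x`, `T ∈ X`, is a root
  have hroot : ∀ T ∈ X, Pz.IsRoot (tau T (xK W)) := by
    intro T hT
    have hfixP : Point.map (W' := W) (tau T) P₀ = P₀ := by
      rw [hP₀eq, map_sub, map_zsmul, hΦ, map_frobPt, map_tau_gen, map_add, smul_add,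
        frobPt_constPt, hX T hT, map_zsmul]
      abel
    rw [hP₀some, Point.map_some] at hfixP
    have hx : tau T t₀ = t₀ := (Point.some.inj hfixP).1
    rw [← hf, algHom_algebraMap_ratFunc] at hx
    obtain ⟨htr, -, -⟩ := eq_pull (tau T)
    have hB : aeval (tau T (xK W)) f.denom ≠ 0 := fun h0 => htr ⟨f.denom, f.denom_ne_zero, h0⟩
    rw [div_eq_iff hB] at hx
    rw [IsRoot.def, hPz, eval_sub, eval_mul, eval_C, eval_map, eval_map, ← aeval_def, ← aeval_def,
      hx, hιf]
    ring
  -- count
  have hinj : Function.Injective (fun T : X => tau (T : W.Point) (xK W)) := by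
    intro S T h
    exact Subtype.ext (tau_xK_injective hfix h)
  have hcard : Nat.card X ≤ Pz.natDegree := by
    classical
    have hfin : Fintype X := Fintype.ofFinite X
    rw [Nat.card_eq_fintype_card]
    calc Fintype.card X = (Finset.univ.image (fun T : X => tau (T : W.Point) (xK W))).card := by
          rw [Finset.card_image_of_injective _ hinj, Finset.card_univ]
      _ ≤ Pz.roots.toFinset.card := by
          apply Finset.card_le_card
          intro u hu
          obtain ⟨T, -, rfl⟩ := Finset.mem_image.mp hu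
          rw [Multiset.mem_toFinset, mem_roots hPz0]
          exact hroot T T.2
      _ ≤ Multiset.card Pz.roots := Multiset.toFinset_card_le _
      _ ≤ Pz.natDegree := card_roots' Pz
  have hfinal : (Nat.card X : ℤ) ≤ (xdeg W P₀ : ℤ) := by exact_mod_cast hcard.trans hPzdeg
  have : (xdeg W P₀ : ℤ) = degH P₀H := rfl
  rw [this, hdeg] at hfinal
  exact hfinal

end Fermat.Agent.S58lib.Lat
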