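/-
S58lib / Lat / Core  (helper2)  --  assembly of `FrobCore` (Interface shape) from the Lattès
calculus: relation (R) = `Lat/Relation`, kernel bound (K) = `Lat/Kernel`, with the trace
`a = ℓ + 1 - xdeg (G - ΦG)`; the only remaining input is the point count
`xdeg (G - ΦG) = #E(𝔽_ℓ)`.
-/
import Fermat.Agent.S58lib.Interface
import Fermat.Agent.S58lib.Lat.Kernel

set_option autoImplicit false
set_option linter.unusedSectionVars false

noncomputable section

namespace Fermat.Agent.S58lib.Lat

open Polynomial WeierstrassCurve WeierstrassCurve.Affine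
open Fermat.Agent.S58lib.Par
open scoped Polynomial.Bivariate

variable {ℓ : ℕ} [Fact ℓ.Prime] (E : WeierstrassCurve (ZMod ℓ)) (k : Type) [Field k]
  [DecidableEq k] [Algebra (ZMod ℓ) k]

/-- a field containing `ZMod ℓ` has characteristic `ℓ` -/
theorem charP_of_algebra_zmod : CharP k ℓ :=
  charP_of_injective_algebraMap (algebraMap (ZMod ℓ) k).injective ℓ

/-- the base change of a curve over `ZMod ℓ` is Frobenius-stable -/
theorem map_frobenius_baseChange_zmod [CharP k ℓ] :
    ((E⁄k : Affine k)).map (frobenius k ℓ) = (E⁄k : Affine k) := by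
  have key : ∀ a : ZMod ℓ, frobenius k ℓ (algebraMap (ZMod ℓ) k a) = algebraMap (ZMod ℓ) k a := by
    intro a
    rw [frobenius_def, ← map_pow, ZMod.pow_card]
  ext <;> simp [key]

/-- ellipticity of the base change -/
theorem isElliptic_baseChange_zmod (hΔ : E.Δ ≠ 0) : (E⁄k : Affine k).IsElliptic := by
  have : E.IsElliptic := ⟨isUnit_iff_ne_zero.mpr hΔ⟩
  show (WeierstrassCurve.map E (algebraMap (ZMod ℓ) k)).IsElliptic
  infer_instance

variable {E k}

/-- the Interface Frobenius is the Frobenius of the Lattès calculus -/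
theorem interface_frobPt_eq_frobK [CharP k ℓ]
    (hfix : ((E⁄k : Affine k)).map (frobenius k ℓ) = (E⁄k : Affine k)) (P : (E⁄k).Point) :
    S58lib.frobPt ℓ E k P = frobK ℓ hfix P := by
  rcases P with _ | ⟨x, y, h⟩
  · show S58lib.frobPt ℓ E k 0 = frobK ℓ hfix 0
    rw [map_zero, map_zero]
  · obtain ⟨h', he⟩ := frobK_some hfix h
    rw [he, S58lib.frobPt, Point.map_some]
    simp only [FiniteField.coe_frobeniusAlgHom, ZMod.card]

section main

variable [CharP k ℓ] [IsAlgClosed k] [(E⁄k : Affine k).IsElliptic]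
  (hfix : ((E⁄k : Affine k)).map (frobenius k ℓ) = (E⁄k : Affine k))

/-- the trace in terms of the degree of `1 - Φ` -/
theorem frobTrace_eq :
    frobTrace hfix = (ℓ : ℤ) + 1 -
      (xdeg (E⁄k : Affine k) (gen (E⁄k : Affine k) -
        frobPt ℓ (FF (E⁄k : Affine k)) hfix (gen (E⁄k : Affine k))) : ℤ) := by
  have h := degH_zsmul_add_zsmul hfix 1 (-1)
  have e : ((1 : ℤ) • genH (E⁄k : Affine k) + (-1 : ℤ) • frobH hfix (genH (E⁄k : Affine k)) :
      Hsub (E⁄k : Affine k)) = genH (E⁄k : Affine k) - frobH hfix (genH (E⁄k : Affine k)) := by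
    rw [one_smul, neg_smul, one_smul, sub_eq_add_neg]
  rw [e] at h
  have e2 : degH (genH (E⁄k : Affine k) - frobH hfix (genH (E⁄k : Affine k))) =
      (xdeg (E⁄k : Affine k) (gen (E⁄k : Affine k) -
        frobPt ℓ (FF (E⁄k : Affine k)) hfix (gen (E⁄k : Affine k))) : ℤ) := rfl
  rw [e2] at h
  linarith

/-- `FrobCore` for one curve, given the point count -/
theorem frobCore_of_count
    (hcount : (xdeg (E⁄k : Affine k) (gen (E⁄k : Affine k) -
        frobPt ℓ (FF (E⁄k : Affine k)) hfix (gen (E⁄k : Affine k))) : ℤ) = (E.card : ℤ)) :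
    (∀ P : (E⁄k).Point,
        S58lib.frobPt ℓ E k (S58lib.frobPt ℓ E k P) - E.traceOfFrobenius • S58lib.frobPt ℓ E k P
          + (ℓ : ℤ) • P = 0) ∧
      (∀ (c : ℤ) (X : AddSubgroup (E⁄k).Point), Finite X →
        (∀ P ∈ X, S58lib.frobPt ℓ E k P = c • P) →
        (Nat.card X : ℤ) ≤ c ^ 2 - E.traceOfFrobenius * c + ℓ) := by
  have htr : frobTrace hfix = E.traceOfFrobenius := by
    rw [frobTrace_eq, hcount, WeierstrassCurve.traceOfFrobenius, Nat.card_zmod]
  constructor
  · intro P
    rw [interface_frobPt_eq_frobK hfix, interface_frobPt_eq_frobK hfix, ← htr]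
    exact frobK_relation hfix P
  · intro c X hX hc
    rw [← htr]
    have := hX
    exact card_le_of_frobK_eq_zsmul hfix c X
      (fun T hT => by rw [← interface_frobPt_eq_frobK hfix]; exact hc T hT)

end main

end Fermat.Agent.S58lib.Lat
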