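/-
S58lib / Lat / QuadRel  (helper2)  --  pure algebra: a quadratic form `d` (a function with the
parallelogram law) on an abelian group with an endomorphism `Φ` scaling `d` by `ℓ`, a vector `G`
with `d G = 1`, and ONE instance of multiplicativity (`d ((1+Φ)²G) = d ((1+Φ)G)²`) force
`d (Φ²G - aΦG + ℓG) = 0` for `a := d (G + ΦG) - 1 - ℓ`  (helper3's computation).
-/
import Fermat.Agent.S58lib.Par.Law

set_option autoImplicit false
set_option linter.unusedSectionVars false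

namespace Fermat.Agent.S58lib.Lat

open Fermat.Agent.S58lib.Par

variable {A : Type*} [AddCommGroup A] {d : A → ℤ}
  (hd : ∀ P Q, d (P + Q) + d (P - Q) = 2 * d P + 2 * d Q)

include hd

theorem par_add (P Q : A) : d (P + Q) = d P + d Q + parB d P Q := by
  unfold parB; ring

theorem parB_add_right (P Q R : A) : parB d P (Q + R) = parB d P Q + parB d P R := by
  rw [parB_comm, parB_add_left hd, parB_comm, parB_comm R]

theorem parB_neg_right (P Q : A) : parB d P (-Q) = -parB d P Q := by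
  have := parB_zsmul_right hd (-1) P Q
  simpa using this

theorem parB_neg_left (P Q : A) : parB d (-P) Q = -parB d P Q := by
  rw [parB_comm, parB_neg_right hd, parB_comm]

/-- scaling of the polarisation -/
theorem parB_map {Φ : A →+ A} {ℓ : ℤ} (hΦ : ∀ P, d (Φ P) = ℓ * d P) (P Q : A) :
    parB d (Φ P) (Φ Q) = ℓ * parB d P Q := by
  unfold parB
  rw [← map_add, hΦ, hΦ, hΦ]
  ring

/-- the binary form `d (r G + s ΦG) = r² + a r s + ℓ s²` -/
theorem d_zsmul_add_zsmul {Φ : A →+ A} {ℓ : ℤ} (hΦ : ∀ P, d (Φ P) = ℓ * d P) {G : A}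
    (hG : d G = 1) (r s : ℤ) :
    d (r • G + s • Φ G) = r ^ 2 + (d (G + Φ G) - 1 - ℓ) * r * s + ℓ * s ^ 2 := by
  rw [par_zsmul_add_zsmul hd, hΦ, hG]
  ring

/-- **the quadratic relation**: `d (Φ²G - aΦG + ℓG) = 0` -/
theorem d_relation {Φ : A →+ A} {ℓ : ℤ} (hΦ : ∀ P, d (Φ P) = ℓ * d P) {G : A}
    (hG : d G = 1)
    (hmul : d (G + (2 : ℤ) • Φ G + Φ (Φ G)) = d (G + Φ G) ^ 2) :
    d (Φ (Φ G) - (d (G + Φ G) - 1 - ℓ) • Φ G + ℓ • G) = 0 := by
  set a : ℤ := d (G + Φ G) - 1 - ℓ with ha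
  have h1 : d (Φ G) = ℓ := by rw [hΦ, hG, mul_one]
  have h2 : d (Φ (Φ G)) = ℓ ^ 2 := by rw [hΦ, h1]; ring
  have hB1 : parB d G (Φ G) = a := by unfold parB; rw [h1, hG]
  have hB2 : parB d (Φ G) (Φ (Φ G)) = ℓ * a := by rw [parB_map hd hΦ, hB1]
  -- the unknown pairing `b = B(G, Φ²G)` from multiplicativity
  have hb : parB d G (Φ (Φ G)) = a ^ 2 - 2 * ℓ := by
    have e : d (G + (2 : ℤ) • Φ G + Φ (Φ G)) =
        d G + 4 * d (Φ G) + d (Φ (Φ G)) + 2 * parB d G (Φ G) + parB d G (Φ (Φ G))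
          + 2 * parB d (Φ G) (Φ (Φ G)) := by
      rw [par_add hd (G + (2 : ℤ) • Φ G), par_add hd G, parB_add_left hd, par_zsmul hd,
        parB_zsmul_right hd, parB_zsmul_left hd]
      ring
    rw [hmul, hG, h1, h2, hB1, hB2] at e
    have e2 : d (G + Φ G) = 1 + ℓ + a := by rw [ha]; ring
    rw [e2] at e
    linear_combination -e
  have e : d (Φ (Φ G) - a • Φ G + ℓ • G) =
      d (Φ (Φ G)) + a ^ 2 * d (Φ G) + ℓ ^ 2 * d G - a * parB d (Φ (Φ G)) (Φ G)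
        + ℓ * parB d (Φ (Φ G)) G - a * ℓ * parB d (Φ G) G := by
    rw [sub_eq_add_neg, par_add hd (Φ (Φ G) + -(a • Φ G)), par_add hd (Φ (Φ G)),
      parB_add_left hd, par_neg hd, par_zsmul hd, par_zsmul hd, parB_neg_right hd,
      parB_neg_left hd, parB_zsmul_right hd, parB_zsmul_right hd, parB_zsmul_left hd,
      parB_zsmul_right hd]
    ring
  rw [e, h2, h1, hG, parB_comm (Φ (Φ G)) (Φ G), hB2, parB_comm (Φ (Φ G)) G, hb,
    parB_comm (Φ G) G, hB1]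
  ring

omit hd in
/-- positivity of the binary form gives `a² ≤ 4ℓ`, hence `c² - ac + ℓ > 0` unless `a² = 4ℓ` -/
theorem form_pos_of_nonneg {a ℓ : ℤ} (hnn : ∀ r s : ℤ, 0 ≤ r ^ 2 + a * r * s + ℓ * s ^ 2)
    (hne : a ^ 2 ≠ 4 * ℓ) (c : ℤ) : 0 < c ^ 2 - a * c + ℓ := by
  have h1 := hnn (-a) 2
  have h2 : a ^ 2 < 4 * ℓ := lt_of_le_of_ne (by nlinarith) hne
  nlinarith [sq_nonneg (2 * c - a)]

omit hd in
/-- for a prime `ℓ`, `a² = 4ℓ` is impossible -/
theorem sq_ne_four_mul_prime {ℓ : ℕ} (hℓ : ℓ.Prime) (a : ℤ) : a ^ 2 ≠ 4 * (ℓ : ℤ) := by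
  intro h
  have hdvd : (ℓ : ℤ) ∣ a ^ 2 := ⟨4, by rw [h]; ring⟩
  have hpa : (ℓ : ℤ) ∣ a := (Nat.prime_iff_prime_int.mp hℓ).dvd_of_dvd_pow hdvd
  obtain ⟨b, rfl⟩ := hpa
  have hℓ0 : (ℓ : ℤ) ≠ 0 := by exact_mod_cast hℓ.ne_zero
  have h4 : (ℓ : ℤ) * b ^ 2 = 4 := by
    apply mul_left_cancel₀ hℓ0
    linear_combination h
  have hd4 : (ℓ : ℤ) ∣ 4 := ⟨b ^ 2, h4.symm⟩
  have hle : ℓ ≤ 4 := by
    have : ℓ ∣ 4 := by exact_mod_cast hd4
    exact Nat.le_of_dvd (by norm_num) this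
  have hℓ2 := hℓ.two_le
  interval_cases ℓ
  · -- ℓ = 2: 2 b² = 4, b² = 2
    have hb2 : b ^ 2 = 2 := by push_cast at h4; linarith
    have h1 : -2 < b := by nlinarith
    have h2 : b < 2 := by nlinarith
    interval_cases b <;> simp at hb2
  · exact absurd hd4 (by decide)
  · exact absurd hℓ (by decide)

end Fermat.Agent.S58lib.Lat
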